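import Fermat.Statements.S02

set_option autoImplicit false
open FreyPackage

namespace Fermat.Agent.S02

/-- Coprime case, with `b` even and `a` odd. -/
theorem frey_of_coprime_even {a b c : ℤ} (ha : a ≠ 0) (hb : b ≠ 0) (hc : c ≠ 0) {p : ℕ}
    (pp : p.Prime) (hp5 : 5 ≤ p) (H : a ^ p + b ^ p = c ^ p) (hgcd : gcd a b = 1)
    (hb2 : (2 : ℤ) ∣ b) : Nonempty FreyPackage := by
  have p_odd : Odd p := pp.odd_of_ne_two (by omega)
  have hb2' : (b : ZMod 2) = 0 := (ZMod.intCast_zmod_eq_zero_iff_dvd b 2).2 hb2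
  -- a is odd
  have ha_odd : ¬ (2 : ℤ) ∣ a := by
    intro h2a
    have h : (2 : ℤ) ∣ gcd a b := dvd_gcd h2a hb2
    rw [hgcd] at h
    have := Int.le_of_dvd one_pos h
    omega
  have hmod : a % 4 = 1 ∨ a % 4 = 3 := by
    have : a % 2 = 1 := by
      rcases Int.emod_two_eq_zero_or_one a with h | h
      · exact absurd (Int.dvd_of_emod_eq_zero h) ha_odd
      · exact h
    omega
  rcases hmod with h1 | h3
  · -- a ≡ 1 mod 4: negate everything
    refine ⟨{ a := -a, b := -b, c := -c, ha0 := neg_ne_zero.mpr ha, hb0 := neg_ne_zero.mpr hb,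
              hc0 := neg_ne_zero.mpr hc, p := p, pp := pp, hp5 := hp5, hFLT := ?_, hgcdab := ?_,
              ha4 := ?_, hb2 := ?_ }⟩
    · rw [p_odd.neg_pow, p_odd.neg_pow, p_odd.neg_pow, ← H]; ring
    · rw [gcd_neg, neg_gcd]; exact hgcd
    · have h4 : ((-a : ℤ) : ZMod 4) = ((3 : ℤ) : ZMod 4) := by
        rw [ZMod.intCast_eq_intCast_iff_dvd_sub]
        have : (4 : ℤ) ∣ 3 - -a := by omega
        exact_mod_cast this
      rw [h4]; rfl
    · rw [Int.cast_neg, hb2', neg_zero]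
  · refine ⟨{ a := a, b := b, c := c, ha0 := ha, hb0 := hb, hc0 := hc, p := p, pp := pp,
              hp5 := hp5, hFLT := H, hgcdab := hgcd, ha4 := ?_, hb2 := hb2' }⟩
    have h4 : ((a : ℤ) : ZMod 4) = ((3 : ℤ) : ZMod 4) := by
      rw [ZMod.intCast_eq_intCast_iff_dvd_sub]
      have : (4 : ℤ) ∣ 3 - a := by omega
      exact_mod_cast this
    rw [h4]; rfl

/-- Coprime case. -/
theorem frey_of_coprime {a b c : ℤ} (ha : a ≠ 0) (hb : b ≠ 0) (hc : c ≠ 0) {p : ℕ}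
    (pp : p.Prime) (hp5 : 5 ≤ p) (H : a ^ p + b ^ p = c ^ p) (hgcd : gcd a b = 1) :
    Nonempty FreyPackage := by
  have p_odd : Odd p := pp.odd_of_ne_two (by omega)
  have hp0 : p ≠ 0 := by omega
  by_cases hb2 : (2 : ℤ) ∣ b
  · exact frey_of_coprime_even ha hb hc pp hp5 H hgcd hb2
  by_cases ha2 : (2 : ℤ) ∣ a
  · refine frey_of_coprime_even hb ha hc pp hp5 ?_ ?_ ha2
    · rw [add_comm]; exact H
    · rw [gcd_comm]; exact hgcd
  -- a and b both odd, so c is even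
  have hc2 : (2 : ℤ) ∣ c := by
    have hap : ¬ (2 : ℤ) ∣ a ^ p := fun h => ha2 (Int.prime_two.dvd_of_dvd_pow h)
    have hbp : ¬ (2 : ℤ) ∣ b ^ p := fun h => hb2 (Int.prime_two.dvd_of_dvd_pow h)
    have : (2 : ℤ) ∣ c ^ p := by
      rw [← H]
      omega
    exact Int.prime_two.dvd_of_dvd_pow this
  -- a^p + (-c)^p = (-b)^p
  refine frey_of_coprime_even (b := -c) (c := -b) ha (neg_ne_zero.mpr hc) (neg_ne_zero.mpr hb)
    pp hp5 ?_ ?_ ?_
  · rw [p_odd.neg_pow, p_odd.neg_pow, ← H]; ring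
  · rw [gcd_neg, ← gcdab_eq_gcdac (Nat.pos_of_ne_zero hp0) H]; exact hgcd
  · exact (dvd_neg).mpr hc2

theorem result (a b c : ℤ) (ha : a ≠ 0) (hb : b ≠ 0) (hc : c ≠ 0) (p : ℕ) (pp : p.Prime) (hp5 : 5 ≤ p) (H : a ^ p + b ^ p = c ^ p) : Nonempty FreyPackage := by
  have hp0 : p ≠ 0 := by omega
  -- divide out by gcd
  have hpos : 0 < Int.gcd a b := Int.gcd_pos_of_ne_zero_left b ha
  obtain ⟨a', b', h1, h2, h3⟩ := Int.exists_gcd_one hpos
  set d : ℤ := (Int.gcd a b : ℤ) with hd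
  have hd0 : d ≠ 0 := by
    rw [hd]; exact_mod_cast hpos.ne'
  have hdc : d ∣ c := by
    rw [← Int.pow_dvd_pow_iff hp0, ← H, h2, h3, mul_pow, mul_pow]
    exact dvd_add (dvd_mul_left _ _) (dvd_mul_left _ _)
  obtain ⟨c', hc'⟩ := hdc
  have ha' : a' ≠ 0 := by
    rintro rfl
    rw [zero_mul] at h2
    exact ha h2
  have hb' : b' ≠ 0 := by
    rintro rfl
    rw [zero_mul] at h3
    exact hb h3
  have hc'0 : c' ≠ 0 := by
    rintro rfl
    rw [mul_zero] at hc'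
    exact hc hc'
  have H' : a' ^ p + b' ^ p = c' ^ p := by
    have hdp : d ^ p ≠ 0 := pow_ne_zero p hd0
    apply mul_left_cancel₀ hdp
    rw [h2, h3, hc'] at H
    linear_combination H
  refine frey_of_coprime ha' hb' hc'0 pp hp5 H' ?_
  change (Int.gcd a' b' : ℤ) = 1
  exact_mod_cast h1

end Fermat.Agent.S02
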