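-- Statement S05: the mod `p` Galois representation of the Frey curve is unramified at odd `q ≠ p`.
import Fermat.Statements.S05
import Fermat.Agent.S05.Core
import Fermat.Agent.S05.OfSubring
import Fermat.Agent.S05.Inertia
import Fermat.Agent.S05.Assembly

set_option autoImplicit false
open WeierstrassCurve WeierstrassCurve.Affine WeierstrassCurve.Affine.Point
open CuspForm ModularFormClass UpperHalfPlane
open FreyPackage

namespace Fermat.Agent.S05

theorem result (P : FreyPackage) {q : ℕ} (hq : q.Prime) (hq2 : q ≠ 2) (hqp : q ≠ P.p) : P.GaloisRepUnramifiedAt q := by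
  intro A hA σ hσ x
  obtain ⟨T, hT⟩ := x
  apply Subtype.ext
  rw [Submodule.mem_torsionBy_iff] at hT
  have hT' : P.p • T = 0 := by
    rw [← natCast_zsmul]; exact hT
  change WeierstrassCurve.Affine.Point.map σ.toAlgHom T = T
  have hU : ∀ n : ℤ, ¬ (q : ℤ) ∣ n → (n : AlgebraicClosure ℚ) ≠ 0 ∧
      (ordOfSubring A).ord (n : AlgebraicClosure ℚ) = 0 :=
    fun n hn => ordOfSubring_intCast_unit A hq hA hn
  have hσ' : ∀ a, (ordOfSubring A).Ge a 0 → (ordOfSubring A).Gt (σ.toAlgHom a - a) 0 := by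
    intro a ha
    rw [ordOfSubring_gt_iff]
    exact inertia_sub_mem_nonunits A σ hσ a ((ordOfSubring_ge_iff A a).mp ha)
  have hqZ : Prime (q : ℤ) := Nat.prime_iff_prime_int.mp hq
  have hq2' : ¬ (q : ℤ) ∣ 2 := by
    intro h
    have h' : q ∣ 2 := by exact_mod_cast h
    exact hq2 ((Nat.prime_dvd_prime_iff_eq hq Nat.prime_two).mp h')
  have hq4 : ¬ (q : ℤ) ∣ 4 := by
    intro h
    have h' : (q : ℤ) ∣ 2 * 2 := by norm_num; exact h
    rcases hqZ.dvd_or_dvd h' with h'' | h'' <;> exact hq2' h''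
  have hqp' : ¬ (q : ℤ) ∣ (P.p : ℤ) := by
    intro h
    have h' : q ∣ P.p := by exact_mod_cast h
    exact hqp ((Nat.prime_dvd_prime_iff_eq hq P.pp).mp h')
  have hcop : ∀ {u v : ℤ}, gcd u v = 1 → (q : ℤ) ∣ u → ¬ (q : ℤ) ∣ v := by
    intro u v huv hu hv
    have := dvd_gcd hu hv
    rw [huv] at this
    exact hqZ.not_dvd_one this
  have hpow : ∀ {u : ℤ}, ¬ (q : ℤ) ∣ u → ¬ (q : ℤ) ∣ u ^ P.p :=
    fun hu h => hu (hqZ.dvd_of_dvd_pow h)
  have hFLT := P.hFLT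
  by_cases hb : (q : ℤ) ∣ P.b
  · have ha : ¬ (q : ℤ) ∣ P.a := fun ha => hcop P.hgcdab ha hb
    have hc : ¬ (q : ℤ) ∣ P.c := hcop P.hgcdbc hb
    refine Assembly.frey_apply (ordOfSubring A) P hU hq2' hq4 hqp' σ.toAlgHom hσ'
      0 (-(P.b ^ P.p)) (P.a ^ P.p) P.b 1 (Or.inl rfl) ?_ ?_ ?_ ?_ ?_ ?_ P.hb0 T hT'
    · ring
    · ring
    · ring
    · rw [zero_sub, dvd_neg]; exact hpow ha
    · have e : -(P.b ^ P.p) - P.a ^ P.p = -(P.c ^ P.p) := by rw [← hFLT]; ring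
      rw [e, dvd_neg]; exact hpow hc
    · ring
  · by_cases ha : (q : ℤ) ∣ P.a
    · have hc : ¬ (q : ℤ) ∣ P.c := hcop P.hgcdac ha
      refine Assembly.frey_apply (ordOfSubring A) P hU hq2' hq4 hqp' σ.toAlgHom hσ'
        0 (P.a ^ P.p) (-(P.b ^ P.p)) P.a (-1) (Or.inr rfl) ?_ ?_ ?_ ?_ ?_ ?_ P.ha0 T hT'
      · ring
      · ring
      · ring
      · have e : (0 : ℤ) - -(P.b ^ P.p) = P.b ^ P.p := by ring
        rw [e]; exact hpow hb
      · have e : P.a ^ P.p - -(P.b ^ P.p) = P.c ^ P.p := by rw [← hFLT]; ring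
        rw [e]; exact hpow hc
      · ring
    · refine Assembly.frey_apply (ordOfSubring A) P hU hq2' hq4 hqp' σ.toAlgHom hσ'
        (P.a ^ P.p) (-(P.b ^ P.p)) 0 P.c 1 (Or.inl rfl) ?_ ?_ ?_ ?_ ?_ ?_ P.hc0 T hT'
      · ring
      · ring
      · ring
      · rw [sub_zero]; exact hpow ha
      · rw [sub_zero, dvd_neg]; exact hpow hb
      · rw [← hFLT]; ring

end Fermat.Agent.S05
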