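
import Fermat.Statements.S07
import Fermat.Prelude.Thm_ModularForm_sturm_bound_Gamma0
import Fermat.Prelude.Thm_CongruenceSubgroup_one_mem_strictPeriods_Gamma0

set_option autoImplicit false
open WeierstrassCurve WeierstrassCurve.Affine WeierstrassCurve.Affine.Point
open CuspForm ModularFormClass UpperHalfPlane
open ModularForm

namespace Fermat.Agent.S07

open scoped MatrixGroups


def colMap (g : SL(2, ℤ)) : ZMod 2 × ZMod 2 :=
  (((g 0 0 : ℤ) : ZMod 2), ((g 1 0 : ℤ) : ZMod 2))

theorem colMap_eq_imp (g g' : SL(2, ℤ)) (h : colMap g = colMap g') :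
    g⁻¹ * g' ∈ CongruenceSubgroup.Gamma0 2 := by
  rw [CongruenceSubgroup.Gamma0_mem]
  have h0 : ((g 0 0 : ℤ) : ZMod 2) = ((g' 0 0 : ℤ) : ZMod 2) := congrArg Prod.fst h
  have h1 : ((g 1 0 : ℤ) : ZMod 2) = ((g' 1 0 : ℤ) : ZMod 2) := congrArg Prod.snd h
  have key : (g⁻¹ * g') 1 0 = - g 1 0 * g' 0 0 + g 0 0 * g' 1 0 := by
    rw [Matrix.SpecialLinearGroup.coe_mul, Matrix.SpecialLinearGroup.coe_inv,
      Matrix.mul_apply, Fin.sum_univ_two, Matrix.adjugate_fin_two]
    simp
  rw [key]
  push_cast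
  rw [h0, h1]
  ring

theorem index_Gamma0_two_le : (CongruenceSubgroup.Gamma0 2).index ≤ 4 := by
  classical
  have hinj : Function.Injective
      (fun q : SL(2, ℤ) ⧸ CongruenceSubgroup.Gamma0 2 => colMap q.out) := by
    intro q q' h
    have := colMap_eq_imp _ _ h
    rw [← QuotientGroup.eq] at this
    simpa using this
  have : Nat.card (SL(2, ℤ) ⧸ CongruenceSubgroup.Gamma0 2) ≤ Nat.card (ZMod 2 × ZMod 2) :=
    Nat.card_le_card_of_injective _ hinj
  have h4 : Nat.card (ZMod 2 × ZMod 2) = 4 := by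
    rw [Nat.card_prod, Nat.card_zmod]
  rw [h4] at this
  exact this

theorem result (f : CuspForm (CongruenceSubgroup.Gamma0 2) 2) : f = 0 := by
  have hidx := index_Gamma0_two_le

  let F : ModularForm (CongruenceSubgroup.Gamma0 2) 2 :=
    { toSlashInvariantForm := f.toSlashInvariantForm
      holo' := f.holo'
      bdd_at_cusps' := fun hc γ hγ => (f.zero_at_cusps' hc γ hγ).isBoundedAtImInfty }
  have hF : F = 0 := by
    apply ModularForm.sturm_bound_Gamma0 2 F
    intro n hn
    have hn0 : n = 0 := by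
      have : ((2 : ℤ) * ((CongruenceSubgroup.Gamma0 2).index : ℤ)).toNat / 12 = 0 := by
        have : ((2 : ℤ) * ((CongruenceSubgroup.Gamma0 2).index : ℤ)).toNat ≤ 8 := by
          omega
        omega
      omega
    subst hn0
    exact CuspFormClass.qExpansion_coeff_zero (f := f) (h := 1) one_pos
      (CongruenceSubgroup.one_mem_strictPeriods_Gamma0 2)
  ext z
  have h2 : F z = (0 : ModularForm (CongruenceSubgroup.Gamma0 2) 2) z := by rw [hF]
  exact h2

end Fermat.Agent.S07
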