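import Fermat.Statements.S08
-- import your own Fermat.Agent.* helpers here

set_option autoImplicit false
open WeierstrassCurve WeierstrassCurve.Affine WeierstrassCurve.Affine.Point
open CuspForm ModularFormClass UpperHalfPlane
open ModularForm

namespace Fermat.Agent.S08

/-- `Γ₀(1)` is the whole of `SL(2, ℤ)`. -/
theorem gamma0_one_eq_top : CongruenceSubgroup.Gamma0 1 = ⊤ := by
  ext g
  simp only [CongruenceSubgroup.Gamma0_mem, Subgroup.mem_top, iff_true]
  exact Subsingleton.elim _ _

/-- Cusp forms of weight `2` for any subgroup equal to the image of `SL(2, ℤ)` vanish. -/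
theorem cuspForm_eq_zero_of_eq_range (Γ : Subgroup (GL (Fin 2) ℝ))
    (hΓ : Γ = (Matrix.SpecialLinearGroup.mapGL ℝ : Matrix.SpecialLinearGroup (Fin 2) ℤ →* GL (Fin 2) ℝ).range)
    (f : CuspForm Γ 2) : f = 0 := by
  subst hΓ
  have h := CuspForm.rank_eq_zero_of_weight_lt_twelve (k := 2) (by norm_num)
  exact rank_zero_iff_forall_zero.mp h f

theorem result (f : CuspForm (CongruenceSubgroup.Gamma0 1) 2) : f = 0 := by
  refine cuspForm_eq_zero_of_eq_range _ ?_ f
  rw [gamma0_one_eq_top, ← MonoidHom.range_eq_map]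

end Fermat.Agent.S08
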