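-- Statement S10: the Frey curve has no Galois-stable cofixed line when p is 5, 7 or 13.
-- Proof: there is no Frey package with such an exponent (Kummer; class number one).
import Fermat.Statements.S10
import Fermat.Agent.Kummer.Assembly
import Fermat.Agent.Kummer.PID7
import Fermat.Agent.Kummer.PID13
import Fermat.Agent.Kummer.KL5
import Fermat.Agent.Kummer.KL7
import Fermat.Agent.Kummer.KL13
import Fermat.Agent.Kummer.Rank

set_option autoImplicit false
open WeierstrassCurve WeierstrassCurve.Affine WeierstrassCurve.Affine.Point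
open CuspForm ModularFormClass UpperHalfPlane
open FreyPackage

namespace Fermat.Agent.S10

theorem result (P : FreyPackage) (hp : P.p = 5 ∨ P.p = 7 ∨ P.p = 13) : ¬ HasGaloisStableCofixedLine (K := AlgebraicClosure ℚ) ℚ P.freyCurve P.p := by
  exfalso
  rcases hp with hp | hp | hp
  · have : Fact (Nat.Prime 5) := ⟨by norm_num⟩
    have : IsCyclotomicExtension {5} ℚ (CyclotomicField 5 ℚ) :=
      CyclotomicField.isCyclotomicExtension 5 ℚ
    exact Fermat.Agent.Kummer.Assembly.no_freyPackage_of_pid_of_kummer P 5 hp
      (CyclotomicField 5 ℚ) (IsCyclotomicExtension.Rat.five_pid _)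
      (fun u n h => Fermat.Agent.Kummer.KL5.kummer
        (Fermat.Agent.Kummer.rank_add_one (p := 5) (by norm_num)) u n h)
  · have : Fact (Nat.Prime 7) := ⟨by norm_num⟩
    have : IsCyclotomicExtension {7} ℚ (CyclotomicField 7 ℚ) :=
      CyclotomicField.isCyclotomicExtension 7 ℚ
    exact Fermat.Agent.Kummer.Assembly.no_freyPackage_of_pid_of_kummer P 7 hp
      (CyclotomicField 7 ℚ) (Fermat.Agent.Kummer.pid_seven _)
      (fun u n h => Fermat.Agent.Kummer.KL7.kummer
        (Fermat.Agent.Kummer.rank_add_one (p := 7) (by norm_num)) u n h)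
  · have : Fact (Nat.Prime 13) := ⟨by norm_num⟩
    have : IsCyclotomicExtension {13} ℚ (CyclotomicField 13 ℚ) :=
      CyclotomicField.isCyclotomicExtension 13 ℚ
    exact Fermat.Agent.Kummer.Assembly.no_freyPackage_of_pid_of_kummer P 13 hp
      (CyclotomicField 13 ℚ) (Fermat.Agent.Kummer.pid_thirteen _)
      (fun u n h => Fermat.Agent.Kummer.KL13.kummer
        (Fermat.Agent.Kummer.rank_add_one (p := 13) (by norm_num)) u n h)

end Fermat.Agent.S10
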