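-- Statement S11: the Frey curve has no Galois-stable cofixed line when p = 11.
-- Proof: there is no Frey package with exponent 11 (Kummer; class number one).
import Fermat.Statements.S11
import Fermat.Agent.Kummer.Assembly
import Fermat.Agent.Kummer.PID11
import Fermat.Agent.Kummer.KL11
import Fermat.Agent.Kummer.Rank

set_option autoImplicit false
open WeierstrassCurve WeierstrassCurve.Affine WeierstrassCurve.Affine.Point
open CuspForm ModularFormClass UpperHalfPlane
open FreyPackage

namespace Fermat.Agent.S11

theorem result (P : FreyPackage) (hp : P.p = 11) : ¬ HasGaloisStableCofixedLine (K := AlgebraicClosure ℚ) ℚ P.freyCurve P.p := by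
  exfalso
  have : Fact (Nat.Prime 11) := ⟨by norm_num⟩
  have : IsCyclotomicExtension {11} ℚ (CyclotomicField 11 ℚ) :=
    CyclotomicField.isCyclotomicExtension 11 ℚ
  exact Fermat.Agent.Kummer.Assembly.no_freyPackage_of_pid_of_kummer P 11 hp
    (CyclotomicField 11 ℚ) (Fermat.Agent.Kummer.pid_eleven _)
    (fun u n h => Fermat.Agent.Kummer.KL11.kummer
      (Fermat.Agent.Kummer.rank_add_one (p := 11) (by norm_num)) u n h)

end Fermat.Agent.S11
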