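-- Statement S13 (row 12): a reducible mod-`p` Galois representation of the Frey curve has a
-- Galois-stable line with trivial action on the quotient.
-- The proof is elementary: local analysis of the `p`-torsion at `2` (node tables), at odd primes
-- `ℓ ≠ p` (S05), at `p` (kernel of reduction, division-pair polynomials and a Newton-polygon
-- bound), glued by Minkowski's theorem; see `Fermat/Agent/S13/*.lean`.
import Fermat.Statements.S13
import Fermat.Agent.S13.Final

set_option autoImplicit false
open WeierstrassCurve WeierstrassCurve.Affine WeierstrassCurve.Affine.Point
open CuspForm ModularFormClass UpperHalfPlane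
open FreyPackage

namespace Fermat.Agent.S13

theorem result (P : FreyPackage) (hred : ¬ GaloisRepIsIrreducible (K := AlgebraicClosure ℚ) ℚ P.freyCurve P.p) : HasGaloisStableCofixedLine (K := AlgebraicClosure ℚ) ℚ P.freyCurve P.p := by
  exact final P hred

end Fermat.Agent.S13
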