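import Fermat.Statements.S20
import Fermat.Agent.S20.Final
import Fermat.Agent.S20.ToCusp
import Fermat.Agent.S20.DictInf
import Fermat.Agent.S21.UpperBound

/-!
# S20: `dim S₂(Γ₀(N)) = genusFormula N`

* Upper bound: the Eichler–Shimura period pairing is injective into the parabolic cohomology,
  whose dimension is bounded by the coset combinatorics (`Fermat.Agent.S21.UpperBound`).
* Lower bound: Riemann–Hurwitz for the function field of `X₀(N)` over `ℂ(j)`
  (`S20/RH.lean`, `S20/Final.lean`), the places over `j = 1728, 0, ∞`
  (`S20/DictFin.lean`, `S20/DictInf.lean`) and the injection of the "holomorphic differentials"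
  into `S₂(Γ₀(N))` (`S20/ToCusp.lean`).
-/

set_option autoImplicit false
open CuspForm

namespace Fermat.Agent.S20

theorem result (N : ℕ) [NeZero N] :
    (Module.finrank ℂ (CuspForm (CongruenceSubgroup.Gamma0 N) 2) : ℚ) = ModularCurve.genusFormula N := by
  have hfin := Fermat.Agent.S21.finite_cuspForm_two N
  exact le_antisymm (Fermat.Agent.S21.finrank_cuspForm_two_le N)
    (genus_le_of N (card_primes_inf_le N)
      (finrank_holoDiff_le_of_cusp N (exists_prime_of_cusp N)))

end Fermat.Agent.S20
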