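-- Statement S22: the Hecke algebra acting on cusp forms of level Γ₀(N) is a finite ℤ-module.
-- Proof: weights k ≤ 1 have no cusp forms; for k = m + 2 the Eichler–Shimura period map embeds
-- the cusp forms Hecke-equivariantly into a space of polynomial-valued cocycles on Γ₀(N), in
-- which the integral cocycles form a finitely generated Hecke-stable lattice.
import Fermat.Statements.S22
import Fermat.Agent.S22.Assembly

set_option autoImplicit false
open CuspForm

namespace Fermat.Agent.S22

theorem result (N : ℕ) [NeZero N] (k : ℤ) (S : Set ℕ) :
    Module.Finite ℤ (CuspForm.heckeAlgebra N k S) := by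
  rcases le_or_gt k 1 with hk | hk
  · exact finite_heckeAlgebra_of_weight_le_one N hk S
  · obtain ⟨m, rfl⟩ : ∃ m : ℕ, k = (m : ℤ) + 2 := ⟨(k - 2).toNat, by omega⟩
    exact finite_heckeAlgebra_main N m S

end Fermat.Agent.S22
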