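-- Statement S23: S₂(Γ₀(N)) has an integral structure.
-- Proof: (A) for every field automorphism σ of ℂ and every cusp form f there is a cusp form
-- whose q-expansion is the σ-conjugate of that of f (Lagrange interpolation with the
-- separating form E₄(N·), level-one conjugation, integrality and removable singularities);
-- (B) Galois descent: the forms with rational q-expansion span; (C) a form with rational
-- q-expansion has bounded denominators, by the finiteness of the Hecke algebra (S22).
import Fermat.Statements.S23
import Fermat.Agent.S23.AutC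
import Fermat.Agent.S23.Denoms
import Fermat.Agent.S23.Conj
import Fermat.Prelude.Thm_ModularForm_sturm_bound_Gamma0
import Fermat.Prelude.Thm_CongruenceSubgroup_one_mem_strictPeriods_Gamma0

set_option autoImplicit false

open UpperHalfPlane hiding I
open scoped MatrixGroups ModularForm

namespace Fermat.Agent.S23


namespace Final

/-- The `n`-th `q`-expansion coefficient as a linear functional on cusp forms. -/
noncomputable def coeffLin (N : ℕ) (k : ℤ) (n : ℕ) :
    CuspForm (CongruenceSubgroup.Gamma0 N) k →ₗ[ℂ] ℂ where
  toFun f := ModularFormClass.qCoeff f n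
  map_add' f g := by
    have h := ModularForm.qExpansion_add (h := 1) one_pos
      (CongruenceSubgroup.one_mem_strictPeriods_Gamma0 N) f g
    change (qExpansion 1 (⇑(f + g))).coeff n = (qExpansion 1 ⇑f).coeff n + (qExpansion 1 ⇑g).coeff n
    rw [FunLike.coe_add, h, map_add]
  map_smul' a f := by
    have h := ModularForm.qExpansion_smul (h := 1) one_pos
      (CongruenceSubgroup.one_mem_strictPeriods_Gamma0 N) a f
    change (qExpansion 1 (⇑(a • f))).coeff n = a • (qExpansion 1 ⇑f).coeff n
    rw [FunLike.coe_smul, h, PowerSeries.coeff_smul, smul_eq_mul]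

theorem coeffLin_apply (N : ℕ) (k : ℤ) (n : ℕ) (f : CuspForm (CongruenceSubgroup.Gamma0 N) k) :
    coeffLin N k n f = ModularFormClass.qCoeff f n := rfl

/-- Sturm bound for cusp forms on `Γ₀(N)`. -/
theorem eq_zero_of_coeffLin (N : ℕ) [NeZero N] (k : ℤ)
    (f : CuspForm (CongruenceSubgroup.Gamma0 N) k)
    (h : ∀ n ≤ (k * (CongruenceSubgroup.Gamma0 N).index).toNat / 12, coeffLin N k n f = 0) :
    f = 0 := by
  have h0 := ModularForm.sturm_bound_Gamma0 N (CuspForm.toModularFormₗ f) (fun n hn => h n hn)
  exact CuspForm.toModularFormₗ_injective (by rw [h0, map_zero])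

/-- The cusp forms with rational `q`-expansion span `S₂(Γ₀(N))`. -/
theorem span_rat_eq_top (N : ℕ) [NeZero N] :
    Submodule.span ℂ {f : CuspForm (CongruenceSubgroup.Gamma0 N) 2 |
      ∀ n : ℕ, ∃ r : ℚ, ModularFormClass.qCoeff f n = (r : ℂ)} = ⊤ :=
  (span_rat_of_aut_stable (coeffLin N 2)
    ((2 * (CongruenceSubgroup.Gamma0 N).index : ℤ).toNat / 12)
    (eq_zero_of_coeffLin N 2)
    (fun σ f => exists_cuspForm_conj N σ f)).symm

end Final

theorem result (N : ℕ) [NeZero N] : CuspForm.HasIntegralStructure N 2 := by
  unfold CuspForm.HasIntegralStructure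
  rw [eq_top_iff, ← Final.span_rat_eq_top N]
  exact Submodule.span_le.mpr fun f hf => mem_span_intLattice_of_rat N f hf

end Fermat.Agent.S23
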