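-- Statement S16 (Mazur): the Eisenstein ideal of the weight-2 Hecke algebra of Γ₀(p) has index
-- n = (p - 1) / gcd(p - 1, 12).
-- Proof: Step 0 (StepZero): T/I = ℤ/J, J = the Eisenstein values P(1 + ℓ, 1) of all Hecke
-- relations P(T_ℓ, U_p) = 0, and by duality a Hecke relation structure modulo d gives a lattice
-- cusp form congruent to the Eisenstein series modulo d.  Lower bound (LowerBound): the Shimura
-- homomorphism Γ₀(p) → (ℤ/p)ˣ/μ₁₂ lifts to an integral parabolic class and is Eisenstein.
-- Upper bound (UpperBound): a weight-2 form congruent to a constant modulo ℓ^a at both cusps is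
-- excluded by traces and norms to level one and the Miller bound.
import Fermat.Statements.S16
import Fermat.Agent.S16.StepZero
import Fermat.Agent.S16.LowerBoundFinal
import Fermat.Agent.S16.UpperBound

set_option autoImplicit false
open ModularCurve CuspForm
open ModularCurve

namespace Fermat.Agent.S16

theorem result
    (p : ℕ) [Fact p.Prime] :
    Nat.card (↥(heckeLatticeAlgebra p ∅) ⧸
        Ideal.map ((latticeRestrictHom p ∅).toRingHom.comp (heckeEvalForms p 2))
          (eisensteinIdeal p)) =
      eisensteinNumerator p := by
  refine card_quotient_of_bounds p (fun P hP => lowerBound p P hP) ?_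
  intro d hd h
  obtain ⟨f, -, c, hc, hcong⟩ := exists_form_of_eisenstein_relations p d hd h
  exact upperBound p d hd f c hc hcong

end Fermat.Agent.S16
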