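-- Statement S21 (row 20): Eichler–Shimura for the period pairing `periodHomPair N`.
-- Injectivity: `Fermat/Agent/S21/Inj.lean` (reflected primitives + maximum principle);
-- image inside the parabolic homomorphisms: `Fermat/Agent/S21/Prim.lean`;
-- dimension bound for parabolic homomorphisms: `Fermat/Agent/S21/Cocycle.lean` together with
-- the coset combinatorics `Fermat/Agent/S20/Comb.lean`;
-- dimension formula for weight two cusp forms: statement S20.
import Fermat.Statements.S21
import Fermat.Agent.S20
import Fermat.Agent.S21.Assembly

set_option autoImplicit false
open ModularCurve

namespace Fermat.Agent.S21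

theorem result (N : ℕ) [NeZero N] :
    Function.Injective (ModularCurve.periodHomPair N)
      ∧ LinearMap.range (ModularCurve.periodHomPair N)
          = ModularCurve.Period.parabolicHoms ℂ (CongruenceSubgroup.Gamma0 N) ℂ :=
  result_of_finrank (Fermat.Agent.S20.result N)

end Fermat.Agent.S21
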