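-- Statement S18: a point of J₀(N) killed by some m prime to ℓ whose reduction mod ℓ vanishes
-- is zero (ℓ ∤ N).  Proof: Fermat/Agent/S18/* (Kummer witness, descent to a discrete valuation
-- ring, the two charts of the j-line, the Hesse / Legendre / cusp covers, purity).
import Fermat.Statements.S18
import Fermat.Agent.S18.FiniteAll
import Fermat.Agent.S18.CuspInst

set_option autoImplicit false
open ModularCurve

namespace Fermat.Agent.S18

theorem result (N : ℕ) [NeZero N] {ℓ : ℕ}
    [Fact ℓ.Prime] (hℓN : ¬ ℓ ∣ N) (A : ValuationSubring (AlgebraicClosure ℚ)) (hA : A.LiesOverPrime ℓ)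
    (h : ModularCurve.ReductionInputsModL A N) (m : ℕ) (hm : ¬ ℓ ∣ m) (z : ModularCurve.JZero N)
    (hmz : m • z = 0) (hz : ModularCurve.reductionModL A N z = 0) :
    z = 0 :=
  FiniteAll.result_of_cusp N hℓN A hA (CuspInst.cusp_chartLift N ℓ) h m hm z hmz hz

end Fermat.Agent.S18
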