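import Fermat.Statements.S24
import Fermat.Agent.S24.Hurwitz
import Fermat.Agent.S24.BaseChange
import Fermat.Agent.S24.CoeffBC
import Fermat.Agent.S24.Parity
import Fermat.Agent.S24.ComplexPlaces
import Fermat.Agent.S21.Orbits
import Fermat.Agent.S21.Assembly

set_option autoImplicit false
open ModularCurve

namespace Fermat.Agent.S24

open AlgebraicCurve IntermediateField
open scoped MatrixGroups

namespace Final

/-- numerics: the Hurwitz count is twice the genus formula, even and nonnegative -/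
theorem toNat_div_two (N : ℕ) [NeZero N] (Z : ℤ)
    (hZ : Z = (Nat.card (SL(2, ℤ) ⧸ CongruenceSubgroup.Gamma0 N) : ℤ) + 2
      - S21.nOrb (SL(2, ℤ) ⧸ CongruenceSubgroup.Gamma0 N) ModularGroup.S
      - S21.nOrb (SL(2, ℤ) ⧸ CongruenceSubgroup.Gamma0 N) ModularGroup.T
      - S21.nOrb (SL(2, ℤ) ⧸ CongruenceSubgroup.Gamma0 N) (ModularGroup.S * ModularGroup.T)) :
    ((Z.toNat / 2 : ℕ) : ℚ) = genusFormula N := by
  have hfin : Finite (SL(2, ℤ) ⧸ CongruenceSubgroup.Gamma0 N) :=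
    Subgroup.finite_quotient_of_finiteIndex
  have h1 := S21.orbit_count N
  have h2 : (0 : ℚ) ≤ 2 * genusFormula N :=
    le_trans (Nat.cast_nonneg _) (S21.finrank_parabolicHoms_le_two_genus (N := N))
  have h3 := even_card_add_nOrb (X := SL(2, ℤ) ⧸ CongruenceSubgroup.Gamma0 N)
    ModularGroup.S ModularGroup.T
  have hZq : (Z : ℚ) = 2 * genusFormula N := by
    rw [← h1, hZ]; push_cast; ring
  have hZ0 : 0 ≤ Z := by
    have : (0 : ℚ) ≤ (Z : ℚ) := by rw [hZq]; exact h2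
    exact_mod_cast this
  have hZeven : Even Z := by
    obtain ⟨k, hk⟩ := h3
    refine ⟨(Nat.card (SL(2, ℤ) ⧸ CongruenceSubgroup.Gamma0 N) : ℤ) + 1 - k, ?_⟩
    have hk' : ((Nat.card (SL(2, ℤ) ⧸ CongruenceSubgroup.Gamma0 N) : ℤ)
        + S21.nOrb (SL(2, ℤ) ⧸ CongruenceSubgroup.Gamma0 N) ModularGroup.S
        + S21.nOrb (SL(2, ℤ) ⧸ CongruenceSubgroup.Gamma0 N) ModularGroup.T
        + S21.nOrb (SL(2, ℤ) ⧸ CongruenceSubgroup.Gamma0 N) (ModularGroup.S * ModularGroup.T))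
        = (k : ℤ) + k := by exact_mod_cast hk
    rw [hZ]; linarith
  obtain ⟨m, hm⟩ := hZeven
  have hm0 : 0 ≤ m := by omega
  have hnat : Z.toNat / 2 = m.toNat := by omega
  rw [hnat]
  have hmq : ((m.toNat : ℕ) : ℚ) = (m : ℚ) := by
    have : ((m.toNat : ℕ) : ℤ) = m := Int.toNat_of_nonneg hm0
    exact_mod_cast this
  rw [hmq]
  have : (Z : ℚ) = (m : ℚ) + m := by exact_mod_cast hm
  linarith

end Final

theorem result (N : ℕ) [NeZero N]
    [AlgebraicCurve.HasCanonicalDivisor (K := AlgebraicClosure ℚ) (F := ↥(ModularCurve.modularFunctionFieldBar N))] :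
    (AlgebraicCurve.genus (AlgebraicClosure ℚ) ↥(ModularCurve.modularFunctionFieldBar N) : ℚ)
      = ModularCurve.genusFormula N := by
  classical
  obtain ⟨ι, φ, hφ, hLD, hgen, hφj⟩ := exists_barToComplex N
  obtain ⟨hxC, hfdC, hdegC, hgenC, h0C, h1728C, hinfC⟩ := complex_places N
  -- descent of the degree
  have hxC' : Transcendental ℂ (φ (jBC (AlgebraicClosure ℚ) N)) := by rw [hφj]; exact hxC
  have hfdC' : FiniteDimensional ℂ⟮φ (jBC (AlgebraicClosure ℚ) N)⟯ (FF ℂ N) := by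
    rw [hφj]; exact hfdC
  obtain ⟨hx, hfd, hdeg⟩ := baseChange_finrank ι φ hφ hLD hgen (jBC (AlgebraicClosure ℚ) N) hxC'
  have hdeg' : Module.finrank (AlgebraicClosure ℚ)⟮jBC (AlgebraicClosure ℚ) N⟯
      (FF (AlgebraicClosure ℚ) N) = Nat.card (SL(2, ℤ) ⧸ CongruenceSubgroup.Gamma0 N) := by
    rw [hdeg, ← hdegC]
    exact Hurwitz.finrank_congr (congrArg (fun t => ℂ⟮t⟯) hφj)
  -- descent of the zero counts
  have hcount : ∀ a : AlgebraicClosure ℚ,
      Nat.card {v : Place (AlgebraicClosure ℚ) (FF (AlgebraicClosure ℚ) N) //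
        0 < v.ord (jBC (AlgebraicClosure ℚ) N -
          algebraMap (AlgebraicClosure ℚ) (FF (AlgebraicClosure ℚ) N) a)} =
      Nat.card {v : Place ℂ (FF ℂ N) // 0 < v.ord (jBC ℂ N - algebraMap ℂ (FF ℂ N) (ι a))} := by
    intro a
    rw [← baseChange_card_zeros ι φ hφ hLD hgen (jBC (AlgebraicClosure ℚ) N) hx _
      (Hurwitz.transcendental_sub _ hx a), map_sub, hφ, hφj]
  have hι0 : ι 0 = 0 := map_zero ι
  have hι1728 : ι 1728 = 1728 := map_ofNat ι 1728
  have hS : ∀ a : AlgebraicClosure ℚ, a ∉ ({0, 1728} : Finset (AlgebraicClosure ℚ)) →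
      Nat.card {v : Place (AlgebraicClosure ℚ) (FF (AlgebraicClosure ℚ) N) //
        0 < v.ord (jBC (AlgebraicClosure ℚ) N -
          algebraMap (AlgebraicClosure ℚ) (FF (AlgebraicClosure ℚ) N) a)} =
      Module.finrank (AlgebraicClosure ℚ)⟮jBC (AlgebraicClosure ℚ) N⟯
        (FF (AlgebraicClosure ℚ) N) := by
    intro a ha
    rw [Finset.mem_insert, Finset.mem_singleton, not_or] at ha
    rw [hcount a, hdeg']
    apply hgenC
    · rw [← hι0]; exact fun h => ha.1 (ι.injective h)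
    · rw [← hι1728]; exact fun h => ha.2 (ι.injective h)
  have hpoles : Nat.card {v : Place (AlgebraicClosure ℚ) (FF (AlgebraicClosure ℚ) N) //
        v.ord (jBC (AlgebraicClosure ℚ) N) < 0} =
      S21.nOrb (SL(2, ℤ) ⧸ CongruenceSubgroup.Gamma0 N) ModularGroup.T := by
    rw [← hinfC]
    have h1 : Nat.card {v : Place (AlgebraicClosure ℚ) (FF (AlgebraicClosure ℚ) N) //
        v.ord (jBC (AlgebraicClosure ℚ) N) < 0} =
        Nat.card {v : Place (AlgebraicClosure ℚ) (FF (AlgebraicClosure ℚ) N) //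
          0 < v.ord (jBC (AlgebraicClosure ℚ) N)⁻¹} := by
      refine Nat.card_congr (Equiv.subtypeEquivRight fun v => ?_)
      rw [v.ord_inv]; omega
    have h2 : Nat.card {v : Place ℂ (FF ℂ N) // v.ord (jBC ℂ N) < 0} =
        Nat.card {v : Place ℂ (FF ℂ N) // 0 < v.ord (φ (jBC (AlgebraicClosure ℚ) N)⁻¹)} := by
      refine Nat.card_congr (Equiv.subtypeEquivRight fun v => ?_)
      rw [map_inv₀, hφj, v.ord_inv]; omega
    rw [h1, h2]
    exact (baseChange_card_zeros ι φ hφ hLD hgen (jBC (AlgebraicClosure ℚ) N) hx _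
      (Hurwitz.transcendental_inv _ hx)).symm
  have hgenus := genus_eq (jBC (AlgebraicClosure ℚ) N) hx
    ({0, 1728} : Finset (AlgebraicClosure ℚ)) hS
  have h01728 : (0 : AlgebraicClosure ℚ) ≠ 1728 := by norm_num
  have hg : AlgebraicCurve.genus (AlgebraicClosure ℚ) ↥(ModularCurve.modularFunctionFieldBar N) =
      AlgebraicCurve.genus (AlgebraicClosure ℚ) (FF (AlgebraicClosure ℚ) N) := rfl
  rw [hg, hgenus]
  apply Final.toNat_div_two N
  rw [Finset.sum_pair h01728, hpoles, hcount 0, hcount 1728, hι0, hι1728, h0C, h1728C, hdeg']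
  ring

end Fermat.Agent.S24
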