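-- Statement S29: the residual Galois representation attached to a normalised weight-2 eigenform.
import Fermat.Statements.S29
import Fermat.Agent.S29.Top
import Fermat.Agent.S29.CoreGlue
import Fermat.Agent.S29.AsmCore
import Fermat.Agent.S29.KummerFour
import Fermat.Agent.S29.Desc
import Fermat.Agent.S29.KummerCore
import Fermat.Agent.S29.KummerHecke
import Fermat.Agent.S29.WeakCheb

set_option autoImplicit false
open CuspForm CuspForm.IsNormalizedEigenform

namespace Fermat.Agent.S29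

/-- The Kummer map `Θ : peHoms N (ℤ/m) →+ J₀(N)(ℚ̄)`, injective and Hecke-equivariant:
the package (K) assembled from the descent, well-definedness, injectivity and Hecke
compatibility of Kummer data. -/
theorem exists_theta_h13 (N : ℕ) [NeZero N] (m : ℕ) (hm : 0 < m) :
    ∃ Θ : peHoms N (ZMod m) →+ ModularCurve.JZero N, Function.Injective Θ ∧
      ∀ (ℓ : ℕ) [Fact ℓ.Prime] (hℓN : ¬ ℓ ∣ N) (χ χ' : peHoms N (ZMod m)),
        (∀ γ : S22.Gam N, (χ' : Additive (S22.Gam N) →+ ZMod m) (Additive.ofMul γ) =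
          ∑ x : OnePoint (ZMod ℓ),
            (χ : Additive (S22.Gam N) →+ ZMod m) (Additive.ofMul (S22.gamT hℓN γ x))) →
        Θ χ' = ModularCurve.heckeOperatorBar N ⟨ℓ, Fact.out⟩ (Θ χ) := by
  have hm0 : NeZero m := ⟨hm.ne'⟩
  obtain ⟨ι⟩ : Nonempty (AlgebraicClosure ℚ →+* ℂ) := by
    let _ : Algebra ℚ (AlgebraicClosure ℚ) :=
      @AlgebraicClosure.instAlgebra ℚ _ ℚ _ (Algebra.id ℚ)
    exact ⟨(IsAlgClosed.lift : AlgebraicClosure ℚ →ₐ[ℚ] ℂ).toRingHom⟩
  exact Kummer.exists_theta_of_four N m ι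
    (fun χ hχ hT u₁ h1 h2 h3 h4 h5 => Desc.exists_rational N m hm ι χ hχ hT u₁ h1 h2 h3 h4 h5)
    (fun h h' => Kummer.exists_eq_mul_pow N m ι h h')
    (fun h h₀ hh => Kummer.eq_one_of_pow N m ι h h₀ hh)
    (fun ℓ _ hℓN _ _ _ h => Kummer.hecke N m ι ℓ hℓN h)

theorem result
    {N : ℕ} {g : CuspForm (CongruenceSubgroup.Gamma0 N) 2} (hg : g.IsNormalizedEigenform)
    {p : ℕ} (hp : p.Prime) {k : Type} [Field k] [CharP k p]
    (φ : integralClosure ℤ ℂ →+* k) :
    ∃ ρ : ResidualGaloisRep k, ρ.IsAttachedTo g φ ∧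
      ∀ ℓ : ℕ, ℓ.Prime → ¬ ℓ ∣ N * p → ρ.IsUnramifiedAt ℓ :=
  Top.s29_of_core
    (CoreGlue.core_of_assembly
      AsmCore.residualRep_of_inputs
      (fun N _ m hm => exists_theta_h13 N m hm)
      (fun ρ hρ S σ => WeakCheb.exists_frobenius_pow_of_factors ρ hρ S σ))
    hg hp φ

end Fermat.Agent.S29
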