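import Fermat.Statements.S30
import Fermat.Agent.S30.S30Asm
import Fermat.Agent.S30.TateMat
import Fermat.Agent.S30.QuadAllB
import Fermat.Agent.S30.DVRExt
import Fermat.Agent.S30.Tate
import Fermat.Agent.S30.GeomJac
import Fermat.Agent.S30.ThetaFam
import Fermat.Agent.S30.PerLatJ
import Fermat.Agent.S30.PadicLift
import Fermat.Agent.S29.WeakCheb

set_option autoImplicit false
open Polynomial
open CuspForm

namespace Fermat.Agent.S30

theorem result :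
    ∀ (p : ℕ) [Fact p.Prime] (N : ℕ) [NeZero N] (S : Finset ℕ)
      (_hpS : p ∈ S) (_hNS : ∀ q : ℕ, q.Prime → q ∣ N → q ∈ S)
      (𝒪' : Type) [CommRing 𝒪'] [IsDomain 𝒪'] [IsDiscreteValuationRing 𝒪']
      [IsAdicComplete (IsLocalRing.maximalIdeal 𝒪') 𝒪'] [Finite (IsLocalRing.ResidueField 𝒪')]
      [CharZero 𝒪'] (_hp𝒪' : (p : 𝒪') ∈ IsLocalRing.maximalIdeal 𝒪')
      (χ : CuspForm.heckeAlgebra N 2 (↑S : Set ℕ) →+* 𝒪'),
      ∃ (𝒪'' : Type) (_ : CommRing 𝒪'') (_ : IsDomain 𝒪'') (_ : IsDiscreteValuationRing 𝒪'')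
        (_ : IsAdicComplete (IsLocalRing.maximalIdeal 𝒪'') 𝒪'')
        (_ : Finite (IsLocalRing.ResidueField 𝒪'')) (_ : CharZero 𝒪'')
        (_ : Algebra 𝒪' 𝒪'') (_ : Module.Finite 𝒪' 𝒪'') (_ : IsLocalHom (algebraMap 𝒪' 𝒪'')),
      Function.Injective (algebraMap 𝒪' 𝒪'') ∧
      ∃ ρ : GaloisRepAdic 𝒪'',
        (∀ (ℓ : ℕ) (hℓ : ℓ.Prime) (hℓN : ¬ ℓ ∣ N) (hℓS : ℓ ∉ (↑S : Set ℕ)),
          ∀ A : ValuationSubring (AlgebraicClosure ℚ), A.LiesOverPrime ℓ →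
            ∀ σ : AlgebraicClosure ℚ ≃ₐ[ℚ] AlgebraicClosure ℚ, A.IsFrobeniusAt σ ℓ →
              LinearMap.charpoly (ρ.ρ σ) =
                X ^ 2 - C (algebraMap 𝒪' 𝒪'' (χ (CuspForm.heckeAlgebra.T hℓ hℓN hℓS))) * X
                  + C ((ℓ : 𝒪''))) ∧
        (∀ q : ℕ, q.Prime → ¬ q ∣ N → q ≠ p → ρ.IsUnramifiedAt q) := by
  intro p _ N _ S hpS hNS 𝒪' _ _ _ _ _ _ hp𝒪' χ
  obtain ⟨I, hc, hf⟩ := GeomJac.exists_geomInput_of p N S (ThetaFam.exists_family N)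
    (PerLatJ.exists_lattice N S hNS)
  obtain ⟨TI⟩ := Tate.exists_tateInput p N S I hc hf
  exact S30Asm.s30_of_matrix_data p N S (TateMat.exists_matrix_data p N S TI)
    (fun ε hε_level hε_frob _ R Tm hcomm hcont hfrob _ _ _ _ ι hιp _ _ _ χ' g =>
      QuadAllB.exists_scalar p N S hpS hNS
        (fun L _ S' σ => Fermat.Agent.S29.WeakCheb.exists_frobenius_pow L S' σ)
        ε hε_level hε_frob R Tm hcomm hcont hfrob ι hιp χ' g)
    (fun O _ _ _ _ _ _ K _ _ hinj halg s => DVRExt.exists_finite_dvr O K hinj halg s)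
    (PadicLift.cycPadic p) hpS 𝒪' hp𝒪' χ

end Fermat.Agent.S30
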