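-- Statement S34 (row 33): unipotence of the Hecke Galois representation on inertia at primes q ∥ N.
-- The statement below is byte-identical to the frozen statement
-- CuspForm.HeckeGaloisRepDatum.FermatFrozen.S34 (Fermat/Statements/S34.lean; the theorem
-- CuspForm.HeckeGaloisRepDatum.isUnipotentOnInertiaAt_of_dvd_of_not_sq_dvd).
-- Proof: `S34Of.s34_of_G` (forms side) applied to the geometric input (G), which is
-- `GAsmTop.s34_of_loc` (Kummer descent at a stable level) fed with the two local contracts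
-- `GLoc1.locContract₁` (finite chart) and `LocCusp.locContract₂` (cusps).
import Fermat.Statements.S34
import Fermat.Agent.S34.GAsmTop
import Fermat.Agent.S34.GLoc1
import Fermat.Agent.S34.LocCusp

set_option autoImplicit false
set_option autoImplicit false
open IsLocalRing
open CuspForm CuspForm.HeckeGaloisRepDatum

namespace Fermat.Agent.S34

theorem result
    {𝒪 : Type} [CommRing 𝒪] [IsDomain 𝒪] [IsDiscreteValuationRing 𝒪]
    [IsAdicComplete (maximalIdeal 𝒪) 𝒪] [Finite (ResidueField 𝒪)] [CharZero 𝒪]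
    {p : ℕ} (hp : p.Prime) (hp𝒪 : (p : 𝒪) ∈ maximalIdeal 𝒪)
    {N : ℕ} [NeZero N] {S : Finset ℕ} (hpS : p ∈ S) (hNS : ∀ q : ℕ, q.Prime → q ∣ N → q ∈ S)
    {θ : CuspForm.heckeAlgebra N 2 (↑S : Set ℕ) →+* ResidueField 𝒪}
    {T : Type} [CommRing T] [IsLocalRing T] [IsNoetherianRing T]
    [IsAdicComplete (maximalIdeal T) T] [Algebra 𝒪 T] [IsLocalHom (algebraMap 𝒪 T)]
    [Module.Finite 𝒪 T] [Module.Free 𝒪 T]
    (H : CuspForm.HeckeGaloisRepDatum N (↑S : Set ℕ) 𝒪 θ T)
    (q : ℕ) (hq : q.Prime) (hqp : q ≠ p) (hqN : q ∣ N) (hq2 : ¬ q ^ 2 ∣ N) :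
    H.ρ.IsUnipotentOnInertiaAt q := by
  -- `N = M * q` with `q ∤ M`
  obtain ⟨M, rfl⟩ : ∃ M, N = M * q := ⟨N / q, (Nat.div_mul_cancel hqN).symm⟩
  have hqM : ¬ q ∣ M := by
    rintro ⟨k, rfl⟩
    exact hq2 ⟨k, by ring⟩
  have hM : NeZero M := ⟨fun h => by
    subst h
    exact (NeZero.ne (0 * q)) (Nat.zero_mul q)⟩
  have hq0 : NeZero q := ⟨hq.ne_zero⟩
  -- the geometric input (G) from the two local contracts (finite chart / cusps)
  exact Fermat.Agent.S34.GAsmTop.s34_of_loc M q p hp hp𝒪 hpS hNS H hq hqp hqM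
    (fun A hA τ hτ =>
      Fermat.Agent.S34.GLoc1.locContract₁ M q p hq hqM hp (Ne.symm hqp) A hA τ hτ)
    (fun A hA τ hτ =>
      Fermat.Agent.S34.LocCusp.locContract₂ M q p hq hqM hp (Ne.symm hqp) A hA τ hτ)

end Fermat.Agent.S34
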