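-- Statement S37 (Eichler–Shimura congruence relation, `SpecializationExists` for `J₀(N)`).
-- The statement below is byte-identical to the frozen statement ModularCurve.FermatFrozen.S37.
-- Proof: `Final.specializationExists_of_centre` with its four inputs
--   (K-a) inertia acts trivially modulo the centre subgroup   : `KA.inertiaInput`
--   (K-b) the Hecke / Kronecker congruence                    : `KB.heckeInput_all`
--   (W)   constant reduction modulo the centre subgroup       : `WTopB.constReduction`
--   (core) the Kummer core of S18 (good reduction of `X₀(N)`) : `S18.KummerFinal.kummerCore`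
import Fermat.Statements.S37
import Fermat.Agent.S37.Final
import Fermat.Agent.S37.KA
import Fermat.Agent.S37.KBAll
import Fermat.Agent.S37.WTopB
import Fermat.Agent.S18.KummerFinal

set_option autoImplicit false
open ModularCurve

namespace Fermat.Agent.S37

theorem result (N p : ℕ) [NeZero N] (hcomm : ModularCurve.HeckeOperatorsCommuteBar N) : letI := ModularCurve.heckeModuleBar N; ∀ (_ : SMulCommClass (AlgebraicClosure ℚ ≃ₐ[ℚ] AlgebraicClosure ℚ) ModularCurve.HeckeAlg (ModularCurve.JZero N)), ModularCurve.SpecializationExists (K := ℚ) (L := AlgebraicClosure ℚ) N p (ModularCurve.JZero N) :=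
  Final.specializationExists_of_centre N p hcomm
    (fun _ hℓ hℓN A hA => KA.inertiaInput N hℓ hℓN A hA)
    (KB.heckeInput_all N)
    (fun _ hℓ hℓN A hA => WTopB.constReduction N hℓ hℓN A hA)
    (fun _ hℓ hℓN A hA => Fermat.Agent.S18.KummerFinal.kummerCore N hℓ hℓN A hA)

end Fermat.Agent.S37
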