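-- Statement S42 (row 40): for the Frey package's prime and every level M > 0, the residual
-- attachment property holds. Formal consequence of S29 (residual Galois representations attached
-- to weight-two eigenforms) through `Fermat.Agent.S42.FromS29.attachment_of_residual`.
import Fermat.Statements.S42
import Fermat.Agent.S29
import Fermat.Agent.S42.FromS29

set_option autoImplicit false
open FreyPackage

namespace Fermat.Agent.S42

theorem result (P : FreyPackage) :
    ∀ M : ℕ, 0 < M → P.EigenformResidualAttachmentAt M :=
  Fermat.Agent.S42.FromS29.attachment_of_residual Fermat.Agent.S29.result P

end Fermat.Agent.S42
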