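-- Statement S51: for a semistable integral Weierstrass curve, at least one of the mod-3 and
-- mod-5 representations is irreducible.
import Fermat.Statements.S51
import Fermat.Agent.S51.Modular
import Fermat.Agent.S51.Gal3
import Fermat.Agent.S51.Gal5
import Fermat.Agent.S51.RankZero
import Fermat.Agent.S51.Dioph
import Fermat.Agent.S51.Semistable

set_option autoImplicit false
open WeierstrassCurve WeierstrassCurve.Affine WeierstrassCurve.Affine.Point
open CuspForm ModularFormClass UpperHalfPlane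
open WeierstrassCurve

namespace Fermat.Agent.S51

theorem result (W : WeierstrassCurve ℤ) (hΔ : W.Δ ≠ 0) (hW : W.IsSemistableModel) : W.ModRepIsIrreducible 3 ∨ W.ModRepIsIrreducible 5 := by
  by_contra hcon
  rw [not_or] at hcon
  obtain ⟨h3, h5⟩ := hcon
  have hΔE : (W.map (Int.castRingHom ℚ)).Δ ≠ 0 := by
    rw [WeierstrassCurve.map_Δ]
    simpa using hΔ
  obtain ⟨x₀, P, hP0, hP3, hPx⟩ :=
    exists_rat_of_not_irreducible_three (W.map (Int.castRingHom ℚ)) hΔE h3
  obtain ⟨s, p, Q, hQ0, hQ5, hQs, hQp⟩ :=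
    exists_rat_of_not_irreducible_five (W.map (Int.castRingHom ℚ)) hΔE h5
  obtain ⟨f, t, hf0, ht0, hrel, hj⟩ :=
    modular_relation (W.map (Int.castRingHom ℚ)) hΔE x₀ s p P Q hP0 hP3 hPx hQ0 hQ5 hQs hQp
  have ht := t_values rank_zero f t hf0 ht0 hrel
  rw [WeierstrassCurve.map_c₄, WeierstrassCurve.map_Δ] at hj
  have hj' : ((W.c₄ : ℤ) : ℚ) ^ 3 * t = (t + 27) * (t + 3) ^ 3 * ((W.Δ : ℤ) : ℚ) := by
    simpa using hj
  obtain ⟨h5Δ, h5c⟩ := five_dvd_of_t W.c₄ W.Δ t ht hj'
  exact hW 5 (by norm_num) (by exact_mod_cast h5Δ) (by exact_mod_cast h5c)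

end Fermat.Agent.S51
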