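-- Statement S53: existence of the universal deformation ring.
import Fermat.Statements.S53
import Fermat.Agent.S53.Base
import Fermat.Agent.S53.Tangent
import Fermat.Agent.S53.UnivType
import Fermat.Agent.S53.UnivExists
import Fermat.Agent.S53.UnivUnique
import Fermat.Agent.S53.UnivRes

set_option autoImplicit false
set_option autoImplicit false
open GaloisRep

namespace Fermat.Agent.S53

theorem result
    (𝒪 : Type) [CommRing 𝒪] [IsDomain 𝒪] [IsDiscreteValuationRing 𝒪]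
    [IsAdicComplete (IsLocalRing.maximalIdeal 𝒪) 𝒪] [Finite (IsLocalRing.ResidueField 𝒪)]
    (ρbar : ResidualGaloisRep (IsLocalRing.ResidueField 𝒪))
    (𝒟 : ∀ ⦃A : Type⦄ [CommRing A] [IsLocalRing A] [Algebra 𝒪 A], GaloisRepAdic A → Prop)
    (habs : ρbar.IsAbsolutelyIrreducible)
    (h𝒟 : GaloisRep.IsDeformationCondition 𝒪 𝒟)
    (hbar : 𝒟 (GaloisRepAdic.ofResidualGaloisRep ρbar))
    (hfin : GaloisRep.TangentFinite 𝒪 ρbar 𝒟) :
    Nonempty (GaloisRep.DeformationRingData 𝒪 ρbar 𝒟) := by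
  obtain ⟨S⟩ := Setup.nonempty_setup (𝒪 := 𝒪) habs
  have hgood : ∃ i : S.PIdeal, Setup.Good 𝒟 i := Setup.exists_good h𝒟 hbar
  haveI : Nonempty (S.Idx 𝒟) := by
    obtain ⟨i, hi⟩ := hgood
    exact ⟨⟨i, hi⟩⟩
  obtain ⟨s, hs, hgen⟩ := Setup.exists_finset_gens (S := S) h𝒟 hfin hgood
  have hfg : (IsLocalRing.maximalIdeal (S.R 𝒟)).FG := Setup.maximalIdeal_R_fg h𝒟 s hs hgen
  haveI : IsNoetherianRing (S.R 𝒟) := Setup.isNoetherianRing_R hfg
  haveI : IsAdicComplete (IsLocalRing.maximalIdeal (S.R 𝒟)) (S.R 𝒟) := Setup.isAdicComplete_R hfg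
  haveI : IsLocalHom (algebraMap 𝒪 (S.R 𝒟)) := Setup.isLocalHom_algebraMap_R
  exact ⟨{ R := S.R 𝒟
           residue_surjective := Setup.residue_surjective_R
           absIrr := habs
           ρ := (Setup.univRep h𝒟 hfg).toAdic
           isOfType := Setup.univRep_isOfType h𝒟 hfg
           residual_isEquiv := Setup.univRep_residual h𝒟 hfg
           universal := by
             intro A _ _ _ _ _ _ hres ρA hD hbarA
             obtain ⟨φ, hφ, he⟩ := Setup.exists_hom (S := S) h𝒟 hfg A hres ρA hD hbarA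
             refine ⟨φ, ⟨hφ, he⟩, ?_⟩
             rintro φ' ⟨hφ', he'⟩
             exact Setup.hom_unique h𝒟 hfg A φ' φ hφ' hφ (isEquiv_trans he' (isEquiv_symm he)) }⟩

end Fermat.Agent.S53
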