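import Fermat.Statements.S54
import Fermat.Agent.S54.Frob

set_option autoImplicit false
open GaloisRep GaloisRep.DeformationRingData

namespace Fermat.Agent.S54

open Polynomial in
theorem charpoly_eq_map_of_isEquiv {A B : Type} [CommRing A] [IsLocalRing A] [CommRing B]
    [IsLocalRing B] (φ : A →+* B) (hφ : IsLocalHom φ) (ρ : GaloisRepAdic A)
    (ρ' : GaloisRepAdic B) (h : (ρ.baseChangeAlong φ hφ).IsEquiv ρ')
    (σ : AlgebraicClosure ℚ ≃ₐ[ℚ] AlgebraicClosure ℚ) :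
    LinearMap.charpoly (ρ'.ρ σ) = (LinearMap.charpoly (ρ.ρ σ)).map φ := by
  obtain ⟨e⟩ := h
  let _ : Algebra A B := φ.toAlgebra
  have h1 : ρ'.ρ σ = e.toLinearEquiv.conj ((ρ.baseChangeAlong φ hφ).ρ σ) := by
    ext x
    rw [LinearEquiv.conj_apply_apply, e.map_apply, LinearEquiv.apply_symm_apply]
  rw [h1, LinearEquiv.charpoly_conj]
  exact LinearMap.charpoly_baseChange (ρ.ρ σ) B

theorem result {𝒪 : Type} [CommRing 𝒪] [IsDomain 𝒪] [IsDiscreteValuationRing 𝒪] [IsAdicComplete (IsLocalRing.maximalIdeal 𝒪) 𝒪] {ρbar : ResidualGaloisRep (IsLocalRing.ResidueField 𝒪)} {𝒟 : ∀ ⦃A : Type⦄ [CommRing A] [IsLocalRing A] [Algebra 𝒪 A], GaloisRepAdic A → Prop} (D : GaloisRep.DeformationRingData 𝒪 ρbar 𝒟) {N : ℕ} [NeZero N] {S : Set ℕ} {θ : CuspForm.heckeAlgebra N 2 S →+* IsLocalRing.ResidueField 𝒪} {T : Type} [CommRing T] [IsLocalRing T] [IsNoetherianRing T] [IsAdicComplete (IsLocalRing.maximalIdeal T) T]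 [Algebra 𝒪 T] [IsLocalHom (algebraMap 𝒪 T)] [Module.Finite 𝒪 T] [Module.Free 𝒪 T] (H : CuspForm.HeckeGaloisRepDatum N S 𝒪 θ T) (hS : ∀ q : ℕ, q.Prime → q ∣ N → q ∈ S) (h𝒟 : 𝒟 H.ρ) (hres : H.ρ.residual.IsEquiv (ρbar.baseChangeAlong (IsLocalRing.ResidueField.map (algebraMap 𝒪 T)))) : ∃ φ : D.R →ₐ[𝒪] T, Function.Surjective φ ∧ ∃ hφ : IsLocalHom (φ : D.R →+* T), (D.ρ.baseChangeAlong (φ : D.R →+* T) hφ).IsEquiv H.ρ := by
  obtain ⟨φ, ⟨hφ, hequiv⟩, -⟩ := D.universal T H.residue_surjective H.ρ h𝒟 hres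
  refine ⟨φ, ?_, hφ, hequiv⟩
  have hgen : ∀ (t : Module.End ℂ (CuspForm (CongruenceSubgroup.Gamma0 N) 2))
      (ht : t ∈ CuspForm.heckeAlgebra N 2 S), H.π ⟨t, ht⟩ ∈ φ.range := by
    intro t ht
    induction ht using Algebra.adjoin_induction with
    | mem x hx =>
      rcases hx with ⟨ℓ, hℓ, hℓN, hℓS, rfl⟩ | ⟨q, hqN, hq, hqS, rfl⟩
      · obtain ⟨A, σ, hA, hσ⟩ := exists_isFrobeniusAt ℓ hℓ
        have h1 := H.charpoly_frob ℓ hℓ hℓN hℓS A hA σ hσ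
        have h2 := charpoly_eq_map_of_isEquiv (φ : D.R →+* T) hφ D.ρ H.ρ hequiv σ
        rw [h1] at h2
        have h3 := congrArg (fun p => Polynomial.coeff p 1) h2
        simp only [Polynomial.coeff_map] at h3
        simp at h3
        refine ⟨-(LinearMap.charpoly (D.ρ.ρ σ)).coeff 1, ?_⟩
        rw [map_neg]
        have h4 : H.π ⟨CuspForm.heckeTLin 2 hℓ hℓN, CuspForm.heckeTLin_mem_heckeAlgebra hℓ hℓN hℓS⟩ =
            H.π (CuspForm.heckeAlgebra.T hℓ hℓN hℓS) := rfl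
        rw [h4, ← neg_eq_iff_eq_neg.mpr h3.symm]
        rfl
      · exact absurd (hS q hq hqN) hqS
    | algebraMap r =>
      refine ⟨(r : D.R), ?_⟩
      have h5 : (⟨algebraMap ℤ (Module.End ℂ (CuspForm (CongruenceSubgroup.Gamma0 N) 2)) r,
          Subalgebra.algebraMap_mem _ r⟩ : CuspForm.heckeAlgebra N 2 S) =
          ((r : ℤ) : CuspForm.heckeAlgebra N 2 S) := by
        apply Subtype.ext
        simp
      rw [h5, map_intCast, map_intCast]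
    | add x y hx hy ihx ihy =>
      have h6 : (⟨x + y, add_mem hx hy⟩ : CuspForm.heckeAlgebra N 2 S) =
          (⟨x, hx⟩ : CuspForm.heckeAlgebra N 2 S) + ⟨y, hy⟩ := rfl
      rw [h6, map_add]
      exact add_mem ihx ihy
    | mul x y hx hy ihx ihy =>
      have h7 : (⟨x * y, mul_mem hx hy⟩ : CuspForm.heckeAlgebra N 2 S) =
          (⟨x, hx⟩ : CuspForm.heckeAlgebra N 2 S) * ⟨y, hy⟩ := rfl
      rw [h7, map_mul]
      exact mul_mem ihx ihy
  have hrange : Set.range H.π ⊆ ((φ.range : Subalgebra 𝒪 T) : Set T) := by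
    rintro _ ⟨t, rfl⟩
    exact hgen t.1 t.2
  have htop : φ.range = ⊤ := by
    apply top_le_iff.mp
    rw [← H.adjoin_range_π]
    exact Algebra.adjoin_le hrange
  exact (AlgHom.range_eq_top φ).mp htop

end Fermat.Agent.S54
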